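import Fermat.Agent.CauchyJacobi.Residues
import Fermat.Agent.Root.SummaryChowlaSelberg
import Fermat.Agent.Root.SummaryResidueExcess

/-!
# The class number of `ℚ (√-l)`

Chowla and Selberg's summary gives `L (1, χ) = 2 π h / (w √l)`, Dirichlet's evaluation the same
value by the weighted sum of the Legendre symbols, and `w = 2` as `l > 3`.
-/

set_option autoImplicit false
set_option linter.unusedSectionVars false

noncomputable section

open Finset NumberField
open scoped Classical Real

namespace Fermat.Agent.CauchyJacobi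

variable {l : ℕ} [hl : Fact l.Prime]

theorem torsionOrder_eq_two (hl3 : 3 < l) (K : Type*) [Field K] [NumberField K]
    (hK : Module.finrank ℚ K = 2) (hdisc : discr K = -(l : ℤ)) : Units.torsionOrder K = 2 := by
  set w := Units.torsionOrder K with hw
  obtain ⟨g, hg⟩ := IsCyclic.exists_ofOrder_eq_natCard (α := Units.torsion K)
  have hord : IsPrimitiveRoot (((g : (𝓞 K)ˣ) : 𝓞 K) : K) w := by
    have h1 : IsPrimitiveRoot g w := by
      rw [hw, Units.torsionOrder, ← hg]
      exact IsPrimitiveRoot.orderOf g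
    exact ((h1.map_of_injective (f := (Units.torsion K).subtype) Subtype.val_injective).map_of_injective
      (f := Units.coeHom (𝓞 K)) Units.val_injective).map_of_injective
        (f := algebraMap (𝓞 K) K) RingOfIntegers.coe_injective
  have hwpos : 0 < w := Units.torsionOrder_pos K
  have hdeg : ∀ {μ : K} {n : ℕ}, IsPrimitiveRoot μ n → 0 < n → n.totient ≤ 2 := fun {μ n} hμ hn => by
    rw [← Polynomial.natDegree_cyclotomic n ℚ, Polynomial.cyclotomic_eq_minpoly_rat hμ hn, ← hK]
    exact minpoly.natDegree_le μ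
  have hne : ∀ (d : ℤ) (s : K), Squarefree d → d < 0 → s ^ 2 = (d : K) →
      FA.FieldClassBound.discK d = -(l : ℤ) := fun d s hd hd0 hs => by
    rw [← hdisc, FA.ChowlaSelberg.discr_eq_discK hK hd hd0 hs]
  have h4 : ¬ 4 ∣ w := fun hd => by
    obtain ⟨m, hm⟩ := hd
    have hμ := hord.pow hwpos (show w = m * 4 by rw [hm, mul_comm])
    have hsq : ((((g : (𝓞 K)ˣ) : 𝓞 K) : K) ^ m) ^ 2 = ((-1 : ℤ) : K) := by
      push_cast
      exact (hμ.pow (by norm_num) (show 4 = 2 * 2 from rfl)).eq_neg_one_of_two_right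
    have := hne (-1) _ isUnit_one.neg.squarefree (by norm_num) hsq
    unfold FA.FieldClassBound.discK at this
    norm_num at this
    have h4l : l = 4 := by omega
    exact absurd hl.out (by rw [h4l]; decide)
  have h3 : ¬ 3 ∣ w := fun hd => by
    obtain ⟨m, hm⟩ := hd
    have hμ := hord.pow hwpos (show w = m * 3 by rw [hm, mul_comm])
    set μ := (((g : (𝓞 K)ˣ) : 𝓞 K) : K) ^ m
    have h0 : (μ - 1) * (μ ^ 2 + μ + 1) = 0 := by linear_combination hμ.pow_eq_one
    have h2 := (mul_eq_zero.1 h0).resolve_left (sub_ne_zero.2 (hμ.ne_one (by norm_num)))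
    have hs : (2 * μ + 1) ^ 2 = ((-3 : ℤ) : K) := by
      push_cast
      linear_combination 4 * h2
    have := hne (-3) _ (Int.prime_three.squarefree.squarefree_of_dvd (by norm_num)) (by norm_num) hs
    unfold FA.FieldClassBound.discK at this
    norm_num at this
    omega
  have hprime : ∀ q : ℕ, q.Prime → q ∣ w → q = 2 := fun q hq hd => by
    obtain ⟨m, hm⟩ := hd
    have := hdeg (hord.pow hwpos (show w = m * q by rw [hm, mul_comm])) hq.pos
    rw [Nat.totient_prime hq] at this
    rcases (show q = 2 ∨ q = 3 by have := hq.two_le; omega) with h | h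
    · exact h
    · exact absurd ⟨m, h ▸ hm⟩ h3
  obtain ⟨m, hm⟩ := Units.even_torsionOrder K
  have hm1 : m = 1 := by
    by_contra hm1
    have hq := Nat.minFac_prime hm1
    have := hprime _ hq ((Nat.minFac_dvd m).trans ⟨2, by rw [hw, hm]; ring⟩)
    exact h4 (by
      obtain ⟨c, hc⟩ := this ▸ Nat.minFac_dvd m
      exact ⟨c, by rw [hw, hm, hc]; ring⟩)
  rw [hw, hm, hm1]

variable (hl4 : l % 4 = 3) (hl3 : 3 < l)
include hl4 hl3

theorem eq_legendreCharC {χ : DirichletCharacter ℂ l} (hq : χ ^ 2 = 1) (hodd : χ.Odd) :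
    χ = FA.OrderTheta.legendreCharC l := by
  refine MulChar.ext fun u => ?_
  have hsq : ∀ x : ZMod l, x ≠ 0 → IsSquare x → χ x = 1 := fun x hx ⟨y, hy⟩ => by
    have hy0 : y ≠ 0 := fun h => hx (by rw [hy, h, mul_zero])
    rw [hy, map_mul, ← pow_two, ← MulChar.pow_apply' χ two_ne_zero, hq,
      MulChar.one_apply (isUnit_iff_ne_zero.2 hy0)]
  rw [FA.OrderTheta.legendreCharC_apply]
  rcases quadraticChar_dichotomy u.ne_zero with h | h
  · rw [h, Int.cast_one, hsq _ u.ne_zero ((quadraticChar_one_iff_isSquare u.ne_zero).1 h)]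
  · rw [h, Int.cast_neg, Int.cast_one, ← neg_neg (u : ZMod l), ← neg_one_mul (-(u : ZMod l)),
      map_mul, hodd, hsq _ (neg_ne_zero.2 u.ne_zero) ((quadraticChar_one_iff_isSquare
        (neg_ne_zero.2 u.ne_zero)).1 (by rw [quadraticChar_neg' hl4 hl3, h, neg_neg])), mul_one]

theorem sum_char_val : ∑ j : ZMod l, FA.OrderTheta.legendreCharC l j * (j.val : ℂ) =
    (valSum (1 : ZMod l) : ℂ) - (valSum (-1 : ZMod l) : ℂ) := by
  obtain ⟨h1, h2⟩ := union_neg hl4 hl3
  rw [← sum_erase_add _ _ (mem_univ (0 : ZMod l)), MulChar.map_zero, zero_mul, add_zero, h1,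
    sum_union h2, sum_image fun x _ y _ h => neg_injective h, valSum, valSum, Nat.cast_sum,
    Nat.cast_sum, sub_eq_add_neg, ← sum_neg_distrib]
  refine congrArg₂ _ (sum_congr rfl fun r hr => ?_) (sum_congr rfl fun r hr => ?_)
  · rw [FA.OrderTheta.legendreCharC_apply, (mem_resSet_iff hl4 hl3).1 hr, one_mul]
    simp
  · rw [FA.OrderTheta.legendreCharC_neg hl4, FA.OrderTheta.legendreCharC_apply,
      (mem_resSet_iff hl4 hl3).1 hr, neg_one_mul]
    simp

/-- **`l h` is the excess of the sum of the nonresidues.** -/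
theorem card_eq_add_classNumber (K : Type*) [Field K] [NumberField K] [IsTotallyComplex K]
    (hK : Module.finrank ℚ K = 2) (hdisc : discr K = -(l : ℤ)) :
    (resSet l).card = 2 * (valSum (1 : ZMod l) / l) + classNumber K := by
  have : NeZero (discr K).natAbs := ⟨Int.natAbs_ne_zero.mpr (discr_ne_zero K)⟩
  obtain ⟨χ, -, hq, hodd, -, hL, -⟩ := FA.Summary.chowla_selberg K hK
  have hN : (discr K).natAbs = l := by rw [hdisc]; simp
  have key : ∀ (N : ℕ) [NeZero N] (χ : DirichletCharacter ℂ N), N = l → χ ^ 2 = 1 → χ.Odd →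
      DirichletCharacter.LFunction χ 1 =
        ((2 * π * classNumber K / (Units.torsionOrder K * √(N : ℝ)) : ℝ) : ℂ) →
      (resSet l).card = 2 * (valSum (1 : ZMod l) / l) + classNumber K := by
    intro N _ χ hNl hq hodd hL
    subst hNl
    rw [eq_legendreCharC hl4 hl3 hq hodd, FA.OrderTheta.lFunction_one_legendreCharC hl4,
      sum_char_val hl4 hl3, torsionOrder_eq_two hl3 K hK hdisc] at hL
    obtain ⟨n, hn⟩ := dvd_valSum hl4 hl3 (1 : ZMod N)
    have hadd := congrArg (Nat.cast (R := ℂ)) (valSum_add_neg hl4 hl3)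
    rw [hn] at hL hadd ⊢
    rw [Nat.mul_div_cancel_left _ hl.out.pos]
    push_cast at hL hadd
    have hsq : (√(N : ℝ) : ℂ) ≠ 0 :=
      Complex.ofReal_ne_zero.mpr (Real.sqrt_pos.mpr (by exact_mod_cast hl.out.pos)).ne'
    have hπ : (π : ℂ) ≠ 0 := Complex.ofReal_ne_zero.mpr Real.pi_ne_zero
    have hlC : (N : ℂ) ≠ 0 := Nat.cast_ne_zero.2 hl.out.ne_zero
    have hkey : ((resSet N).card : ℂ) = 2 * (n : ℂ) + (classNumber K : ℂ) := by
      field_simp at hL
      refine mul_left_cancel₀ hlC ?_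
      linear_combination hL - hadd
    exact_mod_cast hkey
  exact key _ χ hN hq hodd hL

end Fermat.Agent.CauchyJacobi

end
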