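import Fermat.Agent.CauchyJacobi.Gamma
import Mathlib.FieldTheory.IntermediateField.Adjoin.Basic
import Mathlib.RingTheory.Trace.Basic
import Mathlib.RingTheory.IntegralClosure.IntegrallyClosed

/-!
# The sum of the two products is rational, and their difference times the quadratic Gauss sum

Under an embedding of `ℚ (ζ)`, `ζ` of order `l p`, the product over `c` times the residues becomes
that over `a c` times the residues, as the sum of the residues is divisible by `l`.
-/

set_option autoImplicit false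
set_option linter.unusedSectionVars false

noncomputable section

open Finset FA.DworkRationality FA.GrossKoblitz
open scoped Classical

namespace Fermat.Agent.CauchyJacobi

variable {p : ℕ} [hp : Fact p.Prime] {l : ℕ} [hl : Fact l.Prime]

local notation "Cp" => ℂ_[p]

/-- The quadratic Gauss sum modulo `l`. -/
def quadSum (η : AddChar (ZMod l) Cp) : Cp :=
  gaussSum ((quadraticChar (ZMod l)).ringHomComp (Int.castRingHom Cp)) η

theorem isIntegral_gaussSum {R : Type*} [CommRing R] [Fintype R] [DecidableEq R]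
    (θ : MulChar R Cp) (φ : AddChar R Cp) {N M : ℕ} (hN : 0 < N) (hM : 0 < M)
    (hθ : ∀ x, θ x = 0 ∨ θ x ^ N = 1) (hφ : ∀ x, φ x ^ M = 1) : IsIntegral ℤ (gaussSum θ φ) := by
  refine IsIntegral.sum _ fun x _ => IsIntegral.mul ?_ (IsIntegral.of_pow hM (by rw [hφ x]; exact
    isIntegral_one))
  rcases hθ x with h | h
  · rw [h]; exact isIntegral_zero
  · exact IsIntegral.of_pow hN (by rw [h]; exact isIntegral_one)

theorem exists_int_of_isIntegral {q : ℚ} (h : IsIntegral ℤ ((q : ℚ) : Cp)) :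
    ∃ z : ℤ, (z : ℚ) = q := by
  have : IsIntegral ℤ q := (isIntegral_algebraMap_iff (A := ℚ) (B := Cp)
    (algebraMap ℚ Cp).injective).1 (by simpa using h)
  exact IsIntegrallyClosed.algebraMap_eq_of_integral this

variable (hl4 : l % 4 = 3) (hl3 : 3 < l) {χ : MulChar (ZMod p) ℂ_[p]}
  {ψ : AddChar (ZMod p) ℂ_[p]} {η : AddChar (ZMod l) ℂ_[p]} (hχ : χ ^ l = 1) (hη : η ≠ 1)
include hl4 hl3 hχ hη

theorem quadSum_sq : quadSum η ^ 2 = -(l : Cp) := by
  have hF := ringChar_ne_two hl4 hl3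
  have hne : (quadraticChar (ZMod l)).ringHomComp (Int.castRingHom Cp) ≠ 1 :=
    (MulChar.ringHomComp_ne_one_iff (Int.castRingHom Cp).injective_int).2
      (quadraticChar_ne_one hF)
  rw [quadSum, gaussSum_sq hne ((quadraticChar_isQuadratic _).comp _)
    (AddChar.IsPrimitive.of_ne_one hη), MulChar.ringHomComp_apply, quadraticChar_neg_one hF,
    ZMod.card, ZMod.χ₄_nat_three_mod_four hl4]
  simp

theorem apply_eq_zero_or (x : ZMod p) : χ x = 0 ∨ χ x ^ l = 1 := by
  rcases eq_or_ne x 0 with rfl | hx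
  · exact Or.inl (MulChar.map_zero χ)
  · exact Or.inr (by rw [← MulChar.pow_apply' χ hl.out.ne_zero, hχ,
      MulChar.one_apply (isUnit_iff_ne_zero.2 hx)])

theorem addChar_pow (x : ZMod p) : ψ x ^ p = 1 := by
  rw [← AddChar.map_nsmul_eq_pow, nsmul_eq_mul, ZMod.natCast_self, zero_mul,
    AddChar.map_zero_eq_one]

theorem addChar_pow' (x : ZMod l) : η x ^ l = 1 := by
  rw [← AddChar.map_nsmul_eq_pow, nsmul_eq_mul, ZMod.natCast_self, zero_mul,
    AddChar.map_zero_eq_one]

theorem isIntegral_gaussProd (c : ZMod l) : IsIntegral ℤ (gaussProd χ ψ c) := by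
  refine IsIntegral.prod _ fun r _ => isIntegral_gaussSum _ _ hl.out.pos hp.out.pos (fun x => ?_)
    (addChar_pow hl4 hl3 hχ hη)
  rcases eq_or_ne x 0 with rfl | hx
  · exact Or.inl (MulChar.map_zero _)
  · exact Or.inr (by
      rw [← MulChar.pow_apply' _ hl.out.ne_zero, ← pow_mul, mul_comm, pow_mul, hχ, one_pow,
        MulChar.one_apply (isUnit_iff_ne_zero.2 hx)])

theorem isIntegral_quadSum : IsIntegral ℤ (quadSum η) :=
  IsIntegral.of_pow two_pos (by
    rw [quadSum_sq hl4 hl3 hχ hη, ← Int.cast_natCast, ← Int.cast_neg]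
    exact isIntegral_intCast _)

/-- **Descent.** -/
theorem exists_rat :
    ∃ x y : ℚ, (x : Cp) = gaussProd χ ψ (1 : ZMod l) + gaussProd χ ψ (-1 : ZMod l) ∧
      (y : Cp) = (gaussProd χ ψ (1 : ZMod l) - gaussProd χ ψ (-1 : ZMod l)) * quadSum η := by
  have : NeZero (l * p) := ⟨mul_ne_zero hl.out.ne_zero hp.out.ne_zero⟩
  obtain ⟨ζ, hζ⟩ : ∃ ζ : Cp, IsPrimitiveRoot ζ (l * p) :=
    HasEnoughRootsOfUnity.exists_primitiveRoot _ _
  have hint : IsIntegral ℚ ζ := IsIntegral.of_pow (Nat.pos_of_ne_zero this.out) (by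
    rw [hζ.pow_eq_one]; exact isIntegral_one)
  set K := IntermediateField.adjoin ℚ ({ζ} : Set Cp) with hK
  have : FiniteDimensional ℚ K := IntermediateField.adjoin.finiteDimensional hint
  have hζK : ζ ∈ K := IntermediateField.mem_adjoin_simple_self ℚ ζ
  have hmem : ∀ v : Cp, v = 0 ∨ v ^ (l * p) = 1 → v ∈ K := fun v hv => by
    rcases hv with rfl | hv
    · exact zero_mem K
    · obtain ⟨i, -, rfl⟩ := hζ.eq_pow_of_pow_eq_one hv
      exact pow_mem hζK i
  have hχv : ∀ x, χ x = 0 ∨ χ x ^ (l * p) = 1 := fun x => (apply_eq_zero_or hl4 hl3 hχ hη x).imp id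
    fun h => by rw [pow_mul, h, one_pow]
  have hψv : ∀ x : ZMod p, ψ x ^ (l * p) = 1 := fun x => by
    rw [mul_comm, pow_mul, addChar_pow hl4 hl3 hχ hη, one_pow]
  have hηv : ∀ x : ZMod l, η x ^ (l * p) = 1 := fun x => by
    rw [pow_mul, addChar_pow' hl4 hl3 hχ hη, one_pow]
  let χK : MulChar (ZMod p) K :=
    { toFun := fun x => ⟨χ x, hmem _ (hχv x)⟩
      map_one' := Subtype.ext (MulChar.map_one χ)
      map_mul' := fun x y => Subtype.ext (map_mul χ x y)
      map_nonunit' := fun x hx => Subtype.ext (χ.map_nonunit hx) }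
  let ψK : AddChar (ZMod p) K :=
    { toFun := fun x => ⟨ψ x, hmem _ (Or.inr (hψv x))⟩
      map_zero_eq_one' := Subtype.ext (AddChar.map_zero_eq_one ψ)
      map_add_eq_mul' := fun x y => Subtype.ext (AddChar.map_add_eq_mul ψ x y) }
  let ηK : AddChar (ZMod l) K :=
    { toFun := fun x => ⟨η x, hmem _ (Or.inr (hηv x))⟩
      map_zero_eq_one' := Subtype.ext (AddChar.map_zero_eq_one η)
      map_add_eq_mul' := fun x y => Subtype.ext (AddChar.map_add_eq_mul η x y) }
  let GK : ZMod l → K := fun c => ∏ r ∈ resSet l, gaussSum (χK ^ (c * r).val) ψK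
  let qK : K := gaussSum ((quadraticChar (ZMod l)).ringHomComp (Int.castRingHom K)) ηK
  have hmap : ∀ g : K →+* Cp, ∀ c, g (GK c) = ∏ r ∈ resSet l,
      gaussSum ((χK.ringHomComp g) ^ (c * r).val) (g.toMonoidHom.compAddChar ψK) := fun g c => by
    simp only [GK, map_prod, MulChar.ringHomComp_pow, GaussProduct.gaussSum_map]
  have hmapq : ∀ g : K →+* Cp, g qK = gaussSum ((quadraticChar (ZMod l)).ringHomComp
      (Int.castRingHom Cp)) (g.toMonoidHom.compAddChar ηK) := fun g => by
    rw [← GaussProduct.gaussSum_map g]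
    congr 1
    exact MulChar.ext fun x => by simp [MulChar.ringHomComp_apply]
  have hval : ∀ c, (GK c : Cp) = gaussProd χ ψ c := fun c => by
    change K.val.toRingHom (GK c) = _
    rw [hmap]
    exact prod_congr rfl fun r _ => by
      rw [show χK.ringHomComp K.val.toRingHom = χ from MulChar.ext fun x => rfl,
        show K.val.toRingHom.toMonoidHom.compAddChar ψK = ψ from DFunLike.ext _ _ fun x => rfl]
  have hvalq : (qK : Cp) = quadSum η := by
    change K.val.toRingHom qK = _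
    rw [hmapq, quadSum,
      show K.val.toRingHom.toMonoidHom.compAddChar ηK = η from DFunLike.ext _ _ fun x => rfl]
  -- an embedding
  have hfix : ∀ σ : K →ₐ[ℚ] Cp, σ (GK 1 + GK (-1)) = ((GK 1 + GK (-1) : K) : Cp) ∧
      σ ((GK 1 - GK (-1)) * qK) = (((GK 1 - GK (-1)) * qK : K) : Cp) := by
    intro σ
    have hζσ : IsPrimitiveRoot (σ ⟨ζ, hζK⟩) (l * p) :=
      ((IsPrimitiveRoot.coe_submonoidClass_iff (M := Cp) (B := IntermediateField ℚ Cp)
        (N := K) (ζ := ⟨ζ, hζK⟩)).1 hζ).map_of_injective σ.injective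
    obtain ⟨a, -, hcop, ha⟩ := hζ.isPrimitiveRoot_iff.1 hζσ
    have hpow : ∀ v : K, (v : Cp) = 0 ∨ (v : Cp) ^ (l * p) = 1 → σ v = (v : Cp) ^ a := by
      rintro ⟨v, hvK⟩ (hv | hv)
      · have e : (⟨v, hvK⟩ : K) = 0 := Subtype.ext hv
        rw [e, map_zero, ZeroMemClass.coe_zero, zero_pow]
        rintro rfl
        have := hp.out.one_lt
        have h2 := (Nat.coprime_zero_left _).1 hcop
        have := Nat.le_mul_of_pos_left p hl.out.pos
        omega
      · obtain ⟨i, -, e⟩ := hζ.eq_pow_of_pow_eq_one hv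
        have e' : (⟨v, hvK⟩ : K) = (⟨ζ, hζK⟩ : K) ^ i := Subtype.ext (by rw [SubmonoidClass.coe_pow]; exact e.symm)
        rw [e', map_pow, ← ha, SubmonoidClass.coe_pow, ← pow_mul, ← pow_mul, mul_comm]
    have hal : (a : ZMod l) ≠ 0 := by
      rw [Ne, ZMod.natCast_eq_zero_iff]
      exact fun h => hl.out.ne_one (Nat.dvd_one.1 (hcop ▸ Nat.dvd_gcd h (dvd_mul_right l p)))
    have hap : IsUnit (a : ZMod p) := by
      rw [isUnit_iff_ne_zero, Ne, ZMod.natCast_eq_zero_iff]
      exact fun h => hp.out.ne_one (Nat.dvd_one.1 (hcop ▸ Nat.dvd_gcd h (dvd_mul_left p l)))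
    have hχσ : χK.ringHomComp σ.toRingHom = χ ^ a := MulChar.ext fun x => by
      rw [MulChar.pow_apply_coe]
      exact hpow _ (hχv _)
    have hψσ : σ.toRingHom.toMonoidHom.compAddChar ψK = ψ.mulShift (a : ZMod p) :=
      DFunLike.ext _ _ fun x => (hpow _ (Or.inr (hψv x))).trans (by
        rw [AddChar.mulShift_apply, ← nsmul_eq_mul, AddChar.map_nsmul_eq_pow]; rfl)
    have hησ : σ.toRingHom.toMonoidHom.compAddChar ηK = η.mulShift (a : ZMod l) :=
      DFunLike.ext _ _ fun x => (hpow _ (Or.inr (hηv x))).trans (by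
        rw [AddChar.mulShift_apply, ← nsmul_eq_mul, AddChar.map_nsmul_eq_pow]; rfl)
    obtain ⟨u, hu⟩ := hap
    have hG : ∀ c, σ (GK c) = gaussProd χ ψ ((a : ZMod l) * c) := fun c => by
      have h := hmap σ.toRingHom c
      rw [hχσ, hψσ, ← hu] at h
      refine h.trans ?_
      rw [prod_congr rfl fun r _ => gaussSum_mulShift_eq ((χ ^ a) ^ (c * r).val) ψ u,
        prod_mul_distrib]
      have h1 : ∏ r ∈ resSet l, ((χ ^ a) ^ (c * r).val)⁻¹ (u : ZMod p) = 1 := by
        simp only [← inv_pow, ← pow_mul, MulChar.pow_apply_coe]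
        rw [prod_pow_eq_pow_sum, ← mul_sum]
        obtain ⟨m, hm⟩ := dvd_valSum hl4 hl3 c
        change (χ⁻¹) (u : ZMod p) ^ (a * valSum c) = 1
        rw [hm, mul_left_comm, pow_mul, ← MulChar.pow_apply_coe, inv_pow, hχ, inv_one,
          MulChar.one_apply_coe, one_pow]
      rw [h1, one_mul, gaussProd]
      refine prod_congr rfl fun r _ => ?_
      rw [← pow_mul]
      congr 1
      rw [pow_eq_pow_mod _ hχ, mul_assoc (a : ZMod l), ZMod.val_mul (a : ZMod l), ZMod.val_natCast,
        Nat.mod_mul_mod]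
    have hq : σ qK = ((quadraticChar (ZMod l) (a : ZMod l) : ℤ) : Cp) * quadSum η := by
      have h := hmapq σ.toRingHom
      rw [hησ] at h
      refine h.trans ?_
      obtain ⟨v, hv⟩ := isUnit_iff_ne_zero.2 hal
      rw [← hv, gaussSum_mulShift_eq, ((quadraticChar_isQuadratic (ZMod l)).comp _).inv,
        MulChar.ringHomComp_apply]
      rfl
    have hneg : ∀ c, (a : ZMod l) ∈ resSet l → gaussProd χ ψ ((a : ZMod l) * c) = gaussProd χ ψ c :=
      fun c ha' => by
        unfold gaussProd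
        simp only [mul_assoc (a : ZMod l) c, mul_left_comm (a : ZMod l) c]
        exact prod_mul_left hl4 hl3 (fun x => gaussSum (χ ^ x.val) ψ) ha' c
    have hneg' : ∀ c, -(a : ZMod l) ∈ resSet l →
        gaussProd χ ψ ((a : ZMod l) * c) = gaussProd χ ψ (-c) := fun c ha' => by
      unfold gaussProd
      simp only [show ∀ r, (a : ZMod l) * c * r = -c * (-(a : ZMod l) * r) from fun r => by ring]
      exact prod_mul_left hl4 hl3 (fun x => gaussSum (χ ^ x.val) ψ) ha' (-c)
    simp only [map_add, map_sub, map_mul, hG, hq, AddMemClass.coe_add, MulMemClass.coe_mul,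
      AddSubgroupClass.coe_sub, hval, hvalq]
    by_cases ha' : (a : ZMod l) ∈ resSet l
    · rw [hneg _ ha', hneg _ ha', (mem_resSet_iff hl4 hl3).1 ha', Int.cast_one, one_mul]
      exact ⟨rfl, rfl⟩
    · have hm := (neg_mem_resSet hl4 hl3 hal).2 ha'
      have hqa : quadraticChar (ZMod l) (a : ZMod l) = -1 :=
        (quadraticChar_dichotomy hal).resolve_left fun h => ha' ((mem_resSet_iff hl4 hl3).2 h)
      rw [hneg' _ hm, hneg' _ hm, hqa, neg_neg, Int.cast_neg, Int.cast_one]
      constructor <;> ring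
  -- the trace
  have hrat : ∀ v : K, (∀ σ : K →ₐ[ℚ] Cp, σ v = (v : Cp)) → ∃ q : ℚ, (q : Cp) = (v : Cp) :=
    fun v hv => by
      have h := trace_eq_sum_embeddings (K := ℚ) (L := K) (E := Cp) (x := v)
      rw [sum_congr rfl fun σ _ => hv σ, sum_const, card_univ, AlgHom.card, nsmul_eq_mul] at h
      refine ⟨Algebra.trace ℚ K v / (Module.finrank ℚ K : ℚ), ?_⟩
      rw [eq_ratCast] at h
      rw [Rat.cast_div, Rat.cast_natCast, h,
        mul_div_cancel_left₀ _ (Nat.cast_ne_zero.2 Module.finrank_pos.ne')]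
  obtain ⟨x, hx⟩ := hrat _ fun σ => (hfix σ).1
  obtain ⟨y, hy⟩ := hrat _ fun σ => (hfix σ).2
  exact ⟨x, y, hx.trans (by rw [AddMemClass.coe_add, hval, hval]),
    hy.trans (by rw [MulMemClass.coe_mul, AddSubgroupClass.coe_sub, hval, hval, hvalq])⟩

end Fermat.Agent.CauchyJacobi

end
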