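import Fermat.Agent.CauchyJacobi.Residues
import Fermat.Agent.ChowlaDworkEvans.Gamma
import Fermat.Agent.GaussProduct.Transfer

/-!
# The product of the Gauss sums over the residues, by the formula of Gross and Koblitz

For `p = l k + 1` the one over the residues is `p ^ n` times a unit and the one over their negatives
`p ^ (n + h)` times the inverse of the same unit.
-/

set_option autoImplicit false
set_option linter.unusedSectionVars false

noncomputable section

open Finset FA.DworkRationality FA.GrossKoblitz Fermat.Agent.ChowlaDworkEvans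
open scoped Classical

namespace Fermat.Agent.CauchyJacobi

variable {p : ℕ} [hp : Fact p.Prime] {l : ℕ} [hl : Fact l.Prime] {k : ℕ}

local notation "Cp" => ℂ_[p]

variable (p) in
/-- `r / l`. -/
def fracRes (x : ZMod l) : ℤ_[p] := (x.val : ℤ_[p]) * Ring.inverse (l : ℤ_[p])

variable (p l) in
/-- `(-1) ^ (n + 1) ∏ Γ_p (r / l)` with `l n` the sum of the residues. -/
def unitProd : Cp :=
  (-1) ^ (valSum (1 : ZMod l) / l + 1) * ∏ r ∈ resSet l, padicGamma p (fracRes p r)

/-- The product of the Gauss sums. -/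
def gaussProd (χ : MulChar (ZMod p) Cp) (ψ : AddChar (ZMod p) Cp) (c : ZMod l) : Cp :=
  ∏ r ∈ resSet l, gaussSum (χ ^ (c * r).val) ψ

theorem norm_unitProd : ‖unitProd p l‖ = 1 := by
  simp [unitProd, norm_prod, norm_padicGamma]

variable (hl4 : l % 4 = 3) (hl3 : 3 < l) (hk : p = l * k + 1)
include hl4 hl3 hk

theorem k_pos : 0 < k := Nat.pos_of_ne_zero fun h => by
  have := hp.out.two_le
  rw [h, mul_zero, zero_add] at hk
  omega

theorem even_k : Even k := by
  have h2 : p ≠ 2 := fun h => by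
    have := k_pos hl4 hl3 hk
    have := Nat.mul_le_mul hl.out.two_le this
    omega
  have h := hp.out.odd_of_ne_two h2
  rw [hk, Nat.odd_add_one, Nat.not_odd_iff_even, Nat.even_mul] at h
  exact h.resolve_left (by rw [Nat.even_iff]; omega)

theorem p_ne_two : p ≠ 2 := fun h => by
  have := k_pos hl4 hl3 hk
  have := Nat.mul_le_mul hl.out.two_le this
  omega

theorem val_mul_lt {x : ZMod l} : x.val * k < p - 1 := by
  have := Nat.mul_lt_mul_of_pos_right (ZMod.val_lt x) (k_pos hl4 hl3 hk)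
  omega

theorem isUnit_l : IsUnit (l : ℤ_[p]) := GaussProduct.isUnit_natCast fun h => by
  have := Nat.le_of_dvd hl.out.pos h
  have := Nat.le_mul_of_pos_right l (k_pos hl4 hl3 hk)
  omega

theorem mul_fracRes (x : ZMod l) : (l : ℤ_[p]) * fracRes p x = (x.val : ℤ_[p]) := by
  rw [fracRes, mul_left_comm, Ring.mul_inverse_cancel _ (isUnit_l hl4 hl3 hk), mul_one]

theorem fracRes_eq (x : ZMod l) :
    fracRes p x = (p : ℤ_[p]) * (fracRes p x - 1) + ((p - x.val * k : ℕ) : ℤ_[p]) := by
  have hle : x.val * k ≤ p := by have := val_mul_lt hl4 hl3 hk (x := x); omega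
  have hpk : (p : ℤ_[p]) = (l : ℤ_[p]) * (k : ℤ_[p]) + 1 := by
    exact_mod_cast congrArg (Nat.cast (R := ℤ_[p])) hk
  rw [Nat.cast_sub hle, Nat.cast_mul]
  have h := mul_fracRes hl4 hl3 hk x
  linear_combination (-(k : ℤ_[p])) * h - fracRes p x * hpk

theorem gamma_fracRes_neg {x : ZMod l} (hx : x ≠ 0) :
    padicGamma p (fracRes p x) * padicGamma p (fracRes p (-x)) = -1 := by
  have h := padicGamma_reflection (p_ne_two hl4 hl3 hk) (fracRes p x - 1) (c := p - x.val * k)
    (by have := val_mul_lt hl4 hl3 hk (x := x); omega) (Nat.sub_le _ _)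
  rw [← fracRes_eq hl4 hl3 hk x] at h
  have e : 1 - fracRes p x = fracRes p (-x) := by
    refine (isUnit_l hl4 hl3 hk).mul_left_cancel ?_
    rw [mul_sub, mul_fracRes hl4 hl3 hk, mul_fracRes hl4 hl3 hk, mul_one, ZMod.neg_val, if_neg hx,
      Nat.cast_sub (ZMod.val_lt x).le]
  rw [e] at h
  rw [h]
  refine Odd.neg_one_pow ?_
  have hev : (x.val * k) % 2 = 0 := Nat.even_iff.1 ((even_k hl4 hl3 hk).mul_left _)
  have hod := Nat.odd_iff.1 (hp.out.odd_of_ne_two (p_ne_two hl4 hl3 hk))
  have := val_mul_lt hl4 hl3 hk (x := x)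
  exact Nat.odd_iff.2 (by omega)

/-- The product over the negatives is the inverse. -/
theorem prod_gamma_mul_neg : (∏ r ∈ resSet l, padicGamma p (fracRes p r)) *
    ∏ r ∈ resSet l, padicGamma p (fracRes p (-r)) = -1 := by
  rw [← prod_mul_distrib, prod_congr rfl fun r hr =>
    gamma_fracRes_neg hl4 hl3 hk (mem_resSet.1 hr).1, prod_const, (odd_card hl4 hl3).neg_one_pow]

variable {ω : MulChar (ZMod p) ℂ_[p]} (hω : ∀ x y : ZMod p, ‖ω (x + y) - ω x - ω y‖ < 1)
include hω

theorem gaussSum_eq (x : ZMod l) :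
    gaussSum ((ω⁻¹ ^ k) ^ x.val) (AddChar.zmodChar p (dworkRoot_pow (p := p))) =
      -(dworkPi p ^ (x.val * k) * padicGamma p (fracRes p x)) := by
  obtain ⟨y, hy, h⟩ := FA.Summary.gross_koblitz_prime p ω hω (val_mul_lt hl4 hl3 hk (x := x))
  rw [← pow_mul, mul_comm k, neg_eq_iff_eq_neg.1 h]
  congr 3
  rw [show p - 1 = l * k by omega] at hy
  push_cast at hy
  have hku : IsUnit (k : ℤ_[p]) := GaussProduct.isUnit_natCast fun h => by
    have := Nat.le_of_dvd (k_pos hl4 hl3 hk) h
    have := Nat.le_mul_of_pos_left k hl.out.pos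
    omega
  refine ((isUnit_l hl4 hl3 hk).mul hku).mul_left_cancel ?_
  linear_combination hy - (k : ℤ_[p]) * mul_fracRes hl4 hl3 hk x

theorem gaussProd_eq (c : ZMod l) {m : ℕ} (hm : valSum c = l * m) :
    gaussProd (ω⁻¹ ^ k) (AddChar.zmodChar p (dworkRoot_pow (p := p))) c =
      (-1) ^ (m + 1) * (p : Cp) ^ m * ∏ r ∈ resSet l, padicGamma p (fracRes p (c * r)) := by
  rw [gaussProd, prod_congr rfl fun r _ => gaussSum_eq hl4 hl3 hk hω (c * r), prod_neg,
    prod_mul_distrib, prod_pow_eq_pow_sum, ← sum_mul]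
  change _ * (dworkPi p ^ (valSum c * k) * _) = _
  rw [hm, (odd_card hl4 hl3).neg_one_pow, show l * m * k = (p - 1) * m by
      rw [show p - 1 = l * k by omega]; ring, pow_mul, dworkPi_pow, neg_pow, pow_succ]
  ring

theorem gaussProd_one :
    gaussProd (ω⁻¹ ^ k) (AddChar.zmodChar p (dworkRoot_pow (p := p))) (1 : ZMod l) =
      (p : Cp) ^ (valSum (1 : ZMod l) / l) * unitProd p l := by
  rw [gaussProd_eq hl4 hl3 hk hω 1 (Nat.mul_div_cancel' (dvd_valSum hl4 hl3 1)).symm, unitProd]
  simp only [one_mul]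
  ring

theorem gaussProd_neg_one {h : ℕ} (hh : (resSet l).card = 2 * (valSum (1 : ZMod l) / l) + h) :
    gaussProd (ω⁻¹ ^ k) (AddChar.zmodChar p (dworkRoot_pow (p := p))) (-1 : ZMod l) =
      (p : Cp) ^ (valSum (1 : ZMod l) / l + h) * (unitProd p l)⁻¹ := by
  have hadd := valSum_add_neg hl4 hl3
  obtain ⟨n, hn⟩ := dvd_valSum hl4 hl3 (1 : ZMod l)
  rw [hn, Nat.mul_div_cancel_left _ hl.out.pos] at hh ⊢
  have hm : valSum (-1 : ZMod l) = l * (n + h) := by
    rw [hn, hh] at hadd
    linarith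
  rw [gaussProd_eq hl4 hl3 hk hω (-1) hm, unitProd, hn, Nat.mul_div_cancel_left _ hl.out.pos]
  have hP := prod_gamma_mul_neg hl4 hl3 hk
  set P := ∏ r ∈ resSet l, padicGamma p (fracRes p r)
  simp only [neg_one_mul]
  set P' := ∏ r ∈ resSet l, padicGamma p (fracRes p (-r))
  have hodd : h % 2 = 1 := by
    have := Nat.odd_iff.1 (odd_card hl4 hl3)
    omega
  have hsign : (-1 : Cp) ^ (n + h + 1) * (-1) ^ (n + 1) = -1 := by
    rw [← pow_add]
    exact Odd.neg_one_pow (Nat.odd_iff.2 (by omega))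
  have hinv : ((-1 : Cp) ^ (n + 1) * P)⁻¹ = (-1) ^ (n + h + 1) * P' := by
    refine inv_eq_of_mul_eq_one_right ?_
    linear_combination ((-1 : Cp) ^ (n + h + 1) * (-1) ^ (n + 1)) * hP - hsign
  rw [hinv]
  ring

omit hω in
/-- The unit root modulo `p`. -/
theorem norm_unitProd_mul_factorials :
    ‖unitProd p l * (∏ r ∈ resSet l, ((r.val * k).factorial : Cp)) -
      (-1) ^ (valSum (1 : ZMod l) / l + 1)‖ < 1 := by
  have hone : ∀ r ∈ resSet l,
      ‖padicGamma p (fracRes p r) * ((r.val * k).factorial : Cp) - 1‖ < 1 := fun r hr => by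
    have hlt := val_mul_lt hl4 hl3 hk (x := r)
    have hd : (p : ℤ_[p]) ∣ fracRes p r - -((r.val * k : ℕ) : ℤ_[p]) := by
      rw [sub_neg_eq_add, fracRes_eq hl4 hl3 hk r, Nat.cast_sub (by omega : r.val * k ≤ p),
        add_assoc, sub_add_cancel]
      exact dvd_add (dvd_mul_right _ _) dvd_rfl
    have h := norm_padicGamma_sub_lt hd
    have h1 := padicGamma_neg_natCast (p := p) (a := r.val * k) (by omega)
    rw [show padicGamma p (fracRes p r) * ((r.val * k).factorial : Cp) - 1 =
      (padicGamma p (fracRes p r) - padicGamma p (-((r.val * k : ℕ) : ℤ_[p]))) *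
        ((r.val * k).factorial : Cp) by linear_combination h1, norm_mul]
    refine mul_lt_one_of_nonneg_of_lt_one_left (norm_nonneg _) h ?_
    rw [← map_natCast (toCp p), norm_toCp]
    exact PadicInt.norm_le_one _
  have key : ∀ (s : Finset (ZMod l)) (u : ZMod l → Cp), (∀ i ∈ s, ‖u i - 1‖ < 1) →
      ‖∏ i ∈ s, u i - 1‖ < 1 := by
    intro s u h
    induction s using Finset.induction_on with
    | empty => simp
    | insert j s hj ih =>
      rw [prod_insert hj, show u j * ∏ i ∈ s, u i - 1 =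
        (u j - 1) * (∏ i ∈ s, u i - 1) + ((u j - 1) + (∏ i ∈ s, u i - 1)) by ring]
      have h1 := h j (mem_insert_self j s)
      have h2 := ih fun i hi => h i (mem_insert_of_mem hi)
      refine (IsUltrametricDist.norm_add_le_max _ _).trans_lt (max_lt ?_ ?_)
      · rw [norm_mul]
        exact mul_lt_one_of_nonneg_of_lt_one_left (norm_nonneg _) h1 h2.le
      · exact (IsUltrametricDist.norm_add_le_max _ _).trans_lt (max_lt h1 h2)
  have h := key (resSet l) _ hone
  rw [prod_mul_distrib] at h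
  rw [unitProd, mul_assoc, show ∀ (e x : Cp), e * x - e = e * (x - 1) from fun e x => by ring,
    norm_mul, norm_pow, norm_neg, norm_one, one_pow, one_mul]
  exact h

end Fermat.Agent.CauchyJacobi

end
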