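import Fermat.Agent.CauchyJacobi.Descent
import Fermat.Agent.ChowlaDworkEvans.Main

/-!
# `4 p ^ h = a ^ 2 + l b ^ 2`

`p ^ n` times `u + p ^ h / u` is the sum of the two products, an algebraic integer and rational.
-/

set_option autoImplicit false
set_option linter.unusedSectionVars false

noncomputable section

open Finset FA.DworkRationality FA.GrossKoblitz Fermat.Agent.ChowlaDworkEvans
open scoped Classical

namespace Fermat.Agent.CauchyJacobi

variable {p : ℕ} [hp : Fact p.Prime] {l : ℕ} [hl : Fact l.Prime] {k : ℕ}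

local notation "Cp" => ℂ_[p]

variable (hl4 : l % 4 = 3) (hl3 : 3 < l) (hk : p = l * k + 1)
include hl4 hl3 hk

/-- **The representation.** -/
theorem exists_representation {h : ℕ} (h0 : 0 < h)
    (hh : (resSet l).card = 2 * (valSum (1 : ZMod l) / l) + h) :
    ∃ a b : ℤ, 4 * (p : ℤ) ^ h = a ^ 2 + (l : ℤ) * b ^ 2 ∧ ¬ (p : ℤ) ∣ a ∧
      (a : Cp) = unitProd p l + (p : Cp) ^ h * (unitProd p l)⁻¹ ∧
      (p : ℤ) ∣ a * (∏ r ∈ resSet l, ((r.val * k).factorial : ℤ)) -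
        (-1) ^ (valSum (1 : ZMod l) / l + 1) := by
  obtain ⟨ω, hω⟩ := FA.Summary.exists_teichmuller_mulChar (p := p) (ZMod p)
  obtain ⟨hord, -⟩ := GaussProduct.exists_eq_omega_inv_pow hω
  rw [Fintype.card_units, ZMod.card] at hord
  set χ := ω⁻¹ ^ k with hχdef
  have hχ : χ ^ l = 1 := by
    rw [hχdef, ← pow_mul, show k * l = orderOf ω⁻¹ by rw [hord, mul_comm]; omega, pow_orderOf_eq_one]
  obtain ⟨ζ, hζ⟩ : ∃ ζ : Cp, IsPrimitiveRoot ζ l := HasEnoughRootsOfUnity.exists_primitiveRoot _ _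
  set η := AddChar.zmodChar l hζ.pow_eq_one with hηdef
  have hη : η ≠ 1 := fun h1 => by
    have h2 := DFunLike.congr_fun h1 ((1 : ℕ) : ZMod l)
    rw [hηdef, AddChar.zmodChar_apply', AddChar.one_apply, pow_one] at h2
    exact hζ.ne_one hl.out.one_lt h2
  set ψ := AddChar.zmodChar p (dworkRoot_pow (p := p))
  obtain ⟨x, y, hx, hy⟩ := exists_rat (ψ := ψ) hl4 hl3 hχ hη
  obtain ⟨X, hX⟩ := exists_int_of_isIntegral (p := p) (q := x) (by
    rw [hx]
    exact (isIntegral_gaussProd hl4 hl3 hχ hη 1).add (isIntegral_gaussProd hl4 hl3 hχ hη (-1)))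
  rw [← hX, Rat.cast_intCast, gaussProd_one hl4 hl3 hk hω, gaussProd_neg_one hl4 hl3 hk hω hh] at hx
  rw [gaussProd_one hl4 hl3 hk hω, gaussProd_neg_one hl4 hl3 hk hω hh] at hy
  set n := valSum (1 : ZMod l) / l
  set u := unitProd p l
  have hu : ‖u‖ = 1 := norm_unitProd
  have hu0 : u ≠ 0 := norm_ne_zero_iff.1 (by rw [hu]; exact one_ne_zero)
  have hp0 : (p : Cp) ≠ 0 := Nat.cast_ne_zero.2 hp.out.ne_zero
  have hsmall : ‖(p : Cp) ^ h * u⁻¹‖ < 1 := by
    rw [norm_mul, norm_inv, hu, inv_one, mul_one, norm_pow, ← map_natCast (toCp p), norm_toCp]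
    exact pow_lt_one₀ (norm_nonneg _) norm_prime_lt h0.ne'
  have hone : ‖u + (p : Cp) ^ h * u⁻¹‖ = 1 := by
    rw [IsUltrametricDist.norm_add_eq_max_of_norm_ne_norm (by rw [hu]; exact hsmall.ne'), hu,
      max_eq_left hsmall.le]
  -- `a`
  obtain ⟨a, ha⟩ : (p : ℤ) ^ n ∣ X := by
    rw [← PadicInt.norm_int_le_pow_iff_dvd, ← norm_toCp, map_intCast, hx, pow_add,
      mul_assoc, ← mul_add, norm_mul, hone, mul_one, norm_pow, ← map_natCast (toCp p), norm_toCp,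
      PadicInt.norm_p, zpow_neg, zpow_natCast, inv_pow]
  have haC : (a : Cp) = u + (p : Cp) ^ h * u⁻¹ := by
    refine mul_left_cancel₀ (pow_ne_zero n hp0) ?_
    have hXC := congrArg (fun z : ℤ => (z : Cp)) ha
    push_cast at hXC
    rw [← hXC, hx]
    ring
  -- `b`
  set q := quadSum η
  have hq2 : q ^ 2 = -(l : Cp) := quadSum_sq hl4 hl3 hχ hη
  have hsq : ((((l : ℤ) * (4 * (p : ℤ) ^ h - a ^ 2) : ℤ) : ℚ) : Cp) =
      ((u - (p : Cp) ^ h * u⁻¹) * q) ^ 2 := by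
    rw [Rat.cast_intCast, mul_pow, hq2]
    push_cast
    rw [haC]
    field_simp
    ring
  set c : ℚ := y / (p : ℚ) ^ n with hc
  have hcC : (c : Cp) = (u - (p : Cp) ^ h * u⁻¹) * q := by
    rw [hc, Rat.cast_div, hy, Rat.cast_pow, Rat.cast_natCast, div_eq_iff (pow_ne_zero n hp0)]
    ring
  rw [← hcC, ← Rat.cast_pow] at hsq
  have hcsq := (Rat.cast_injective hsq).symm
  obtain ⟨C, hC⟩ := exists_int_of_isIntegral (p := p) (q := c) (IsIntegral.of_pow two_pos (by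
    rw [← Rat.cast_pow, hcsq, Rat.cast_intCast]
    exact isIntegral_intCast _))
  rw [← hC, ← Int.cast_pow] at hcsq
  have hCsq : C ^ 2 = (l : ℤ) * (4 * (p : ℤ) ^ h - a ^ 2) := Int.cast_injective hcsq
  obtain ⟨b, rfl⟩ : (l : ℤ) ∣ C :=
    (Nat.prime_iff_prime_int.1 hl.out).dvd_of_dvd_pow (hCsq ▸ dvd_mul_right _ _)
  refine ⟨a, b, ?_, ?_, haC, ?_⟩
  · have hl0 : (l : ℤ) ≠ 0 := Int.natCast_ne_zero.2 hl.out.ne_zero
    refine mul_left_cancel₀ hl0 ?_
    linear_combination -hCsq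
  · rw [← norm_intCast_lt_iff (p := p), haC, hone]
    exact lt_irrefl _
  · rw [← norm_intCast_lt_iff (p := p)]
    push_cast
    rw [haC, show (u + (p : Cp) ^ h * u⁻¹) * (∏ r ∈ resSet l, ((r.val * k).factorial : Cp)) -
        (-1) ^ (n + 1) =
      (u * (∏ r ∈ resSet l, ((r.val * k).factorial : Cp)) - (-1) ^ (n + 1)) +
        (p : Cp) ^ h * u⁻¹ * ∏ r ∈ resSet l, ((r.val * k).factorial : Cp) by ring]
    refine (IsUltrametricDist.norm_add_le_max _ _).trans_lt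
      (max_lt (norm_unitProd_mul_factorials hl4 hl3 hk) ?_)
    rw [norm_mul]
    refine mul_lt_one_of_nonneg_of_lt_one_left (norm_nonneg _) hsmall ?_
    rw [← Nat.cast_prod, ← map_natCast (toCp p), norm_toCp]
    exact PadicInt.norm_le_one _

omit hk in
/-- The representation is unique up to signs. -/
theorem representation_unique (hp2 : p ≠ 2) {h : ℕ} {a b x y : ℤ}
    (hab : 4 * (p : ℤ) ^ h = a ^ 2 + (l : ℤ) * b ^ 2)
    (hxy : 4 * (p : ℤ) ^ h = x ^ 2 + (l : ℤ) * y ^ 2)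
    (ha : ¬ (p : ℤ) ∣ a) (hx : ¬ (p : ℤ) ∣ x) :
    x = a ∨ x = -a := by
  have hpp : Prime (p : ℤ) := Nat.prime_iff_prime_int.1 hp.out
  rcases Nat.eq_zero_or_pos h with rfl | h0
  · rw [pow_zero, mul_one] at hab hxy
    have hl7 : (5 : ℤ) ≤ (l : ℤ) := by omega
    have hsmall : ∀ t s : ℤ, 4 = t ^ 2 + (l : ℤ) * s ^ 2 → t ^ 2 = 4 := fun t s hts => by
      rcases eq_or_ne s 0 with rfl | hs
      · linear_combination -hts
      · have : 1 ≤ s ^ 2 := by
          have := Int.one_le_abs hs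
          nlinarith [sq_abs s]
        nlinarith [sq_nonneg t]
    exact sq_eq_sq_iff_eq_or_eq_neg.1 ((hsmall x y hxy).trans (hsmall a b hab).symm)
  have hpdvd : (p : ℤ) ∣ (p : ℤ) ^ h := dvd_pow_self _ h0.ne'
  have hkey : (p : ℤ) ^ h ∣ (x * b - a * y) * (x * b + a * y) :=
    ⟨4 * (b ^ 2 - y ^ 2), by linear_combination (-(b ^ 2)) * hxy + y ^ 2 * hab⟩
  have hb : ¬ (p : ℤ) ∣ b := fun hd => ha (hpp.dvd_of_dvd_pow (n := 2) (by
    rw [show a ^ 2 = 4 * (p : ℤ) ^ h - (l : ℤ) * b ^ 2 by linear_combination -hab]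
    exact dvd_sub (hpdvd.mul_left 4) ((hd.pow two_ne_zero).mul_left _)))
  have h2 : ¬ (p : ℤ) ∣ 2 := fun hd => hp2 ((Nat.prime_dvd_prime_iff_eq hp.out Nat.prime_two).1
    (by exact_mod_cast hd))
  have hone : (p : ℤ) ^ h ∣ x * b - a * y ∨ (p : ℤ) ^ h ∣ x * b + a * y := by
    by_cases hd : (p : ℤ) ∣ x * b + a * y
    · refine Or.inr (hpp.pow_dvd_of_dvd_mul_left h (fun hd' => ?_) hkey)
      have : (p : ℤ) ∣ 2 * (x * b) := by
        rw [show 2 * (x * b) = (x * b + a * y) + (x * b - a * y) by ring]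
        exact dvd_add hd hd'
      rcases hpp.dvd_or_dvd this with e | e
      · exact h2 e
      · exact (hpp.dvd_or_dvd e).elim hx hb
    · exact Or.inl (hpp.pow_dvd_of_dvd_mul_right h hd hkey)
  have hpar : ∀ t s : ℤ, 4 * (p : ℤ) ^ h = t ^ 2 + (l : ℤ) * s ^ 2 → (t - s) % 2 = 0 := fun t s hts => by
    obtain ⟨m, hm⟩ : ∃ m : ℤ, (l : ℤ) = 2 * m + 1 := ⟨(l : ℤ) / 2, by omega⟩
    rw [hm] at hts
    have h2d : (2 : ℤ) ∣ (t - s) * (t - s) :=
      ⟨2 * (p : ℤ) ^ h - m * s ^ 2 - t * s, by linear_combination -hts⟩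
    have := (Int.prime_two.dvd_or_dvd h2d)
    omega
  have hzero : ∀ X Y : ℤ, (p : ℤ) ^ h ∣ X → (2 : ℤ) ∣ X →
      Y ^ 2 + (l : ℤ) * X ^ 2 = 16 * ((p : ℤ) ^ h) ^ 2 → X = 0 := by
    intro X Y hd h2d e
    by_contra hX
    obtain ⟨t, rfl⟩ := hd
    have ht2 : (2 : ℤ) ∣ t := by
      rcases Int.prime_two.dvd_or_dvd h2d with e' | e'
      · exfalso
        have := Int.prime_two.dvd_of_dvd_pow e'
        have h' : (2 : ℕ) ∣ p := by exact_mod_cast this
        exact hp2 ((Nat.prime_dvd_prime_iff_eq Nat.prime_two hp.out).1 h').symm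
      · exact e'
    obtain ⟨t', rfl⟩ := ht2
    have ht' : 1 ≤ t' ^ 2 := by
      have := Int.one_le_abs (show t' ≠ 0 from fun h0 => hX (by rw [h0, mul_zero, mul_zero]))
      nlinarith [sq_abs t']
    have hP : (0 : ℤ) < ((p : ℤ) ^ h) ^ 2 := by
      have : (0 : ℤ) < p := by exact_mod_cast hp.out.pos
      positivity
    have hl5 : (5 : ℤ) ≤ (l : ℤ) := by omega
    nlinarith [sq_nonneg Y, mul_le_mul_of_nonneg_right hl5 (sq_nonneg ((p : ℤ) ^ h * (2 * t'))),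
      mul_le_mul_of_nonneg_left ht' hP.le]
  have hevsum : (2 : ℤ) ∣ x * b - a * y ∧ (2 : ℤ) ∣ x * b + a * y := by
    have e1 := hpar a b hab
    have e2 := hpar x y hxy
    obtain ⟨m1, hm1⟩ : (2 : ℤ) ∣ a - b := Int.dvd_of_emod_eq_zero e1
    obtain ⟨m2, hm2⟩ : (2 : ℤ) ∣ x - y := Int.dvd_of_emod_eq_zero e2
    exact ⟨⟨m2 * b - m1 * y, by linear_combination b * hm2 - y * hm1⟩,
      ⟨m2 * b + m1 * y + b * y, by linear_combination b * hm2 + y * hm1⟩⟩
  have hxb : x * b - a * y = 0 ∨ x * b + a * y = 0 := by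
    rcases hone with e | e
    · exact Or.inl (hzero _ (a * x + (l : ℤ) * b * y) e hevsum.1 (by
        linear_combination (-(a ^ 2 + (l : ℤ) * b ^ 2)) * hxy - 4 * (p : ℤ) ^ h * hab))
    · exact Or.inr (hzero _ (a * x - (l : ℤ) * b * y) e hevsum.2 (by
        linear_combination (-(a ^ 2 + (l : ℤ) * b ^ 2)) * hxy - 4 * (p : ℤ) ^ h * hab))
  have h0' : (x * b - a * y) * (x * b + a * y) = 0 := by rcases hxb with e | e <;> simp [e]
  have hyb : 4 * (p : ℤ) ^ h * (b ^ 2 - y ^ 2) = 0 := by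
    linear_combination h0' + b ^ 2 * hxy - y ^ 2 * hab
  have hby : b ^ 2 - y ^ 2 = 0 := (mul_eq_zero.1 hyb).resolve_left
    (mul_ne_zero (by norm_num) (pow_ne_zero _ (Int.natCast_ne_zero.2 hp.out.ne_zero)))
  exact sq_eq_sq_iff_eq_or_eq_neg.1 (by linear_combination hab - hxy + (l : ℤ) * hby)

end Fermat.Agent.CauchyJacobi

end
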