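import Mathlib.NumberTheory.LegendreSymbol.QuadraticChar.Basic
import Mathlib.Algebra.BigOperators.Field

/-!
# The residues modulo a prime `l ≡ 3 (mod 4)`

They are half of the units, `-1` exchanges them with the others, and their sum is divisible by `l`.
-/

set_option autoImplicit false
set_option linter.unusedSectionVars false

noncomputable section

open Finset
open scoped Classical

namespace Fermat.Agent.CauchyJacobi

variable {l : ℕ} [hl : Fact l.Prime]

variable (l) in
/-- The nonzero squares. -/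
def resSet : Finset (ZMod l) := univ.filter fun x => x ≠ 0 ∧ IsSquare x

theorem mem_resSet {x : ZMod l} : x ∈ resSet l ↔ x ≠ 0 ∧ IsSquare x := by simp [resSet]

/-- The sum of the least positive representatives. -/
def valSum (c : ZMod l) : ℕ := ∑ r ∈ resSet l, (c * r).val

variable (hl4 : l % 4 = 3) (hl3 : 3 < l)
include hl4 hl3

theorem ringChar_ne_two : ringChar (ZMod l) ≠ 2 := (ZMod.ringChar_zmod_n l).trans_ne (by omega)

theorem quadraticChar_neg' (x : ZMod l) :
    quadraticChar (ZMod l) (-x) = -quadraticChar (ZMod l) x := by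
  rw [← neg_one_mul x, map_mul, quadraticChar_neg_one (ringChar_ne_two hl4 hl3), ZMod.card,
    ZMod.χ₄_nat_three_mod_four hl4, neg_one_mul]

theorem mem_resSet_iff {x : ZMod l} : x ∈ resSet l ↔ quadraticChar (ZMod l) x = 1 := by
  rw [mem_resSet]
  constructor
  · exact fun h => (quadraticChar_one_iff_isSquare h.1).2 h.2
  · intro h
    have hx : x ≠ 0 := fun h0 => by simp [h0] at h
    exact ⟨hx, (quadraticChar_one_iff_isSquare hx).1 h⟩

theorem neg_mem_resSet {x : ZMod l} (hx : x ≠ 0) : -x ∈ resSet l ↔ x ∉ resSet l := by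
  rw [mem_resSet_iff hl4 hl3, mem_resSet_iff hl4 hl3, quadraticChar_neg' hl4 hl3]
  rcases quadraticChar_dichotomy hx with h | h <;> rw [h] <;> norm_num

/-- The units are the residues and their negatives. -/
theorem union_neg : univ.erase (0 : ZMod l) = resSet l ∪ (resSet l).image (fun x => -x) ∧
    Disjoint (resSet l) ((resSet l).image (fun x => -x)) := by
  refine ⟨?_, ?_⟩
  · ext x
    rw [mem_erase, mem_union, mem_image]
    constructor
    · rintro ⟨hx, -⟩
      by_cases h : x ∈ resSet l
      · exact Or.inl h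
      · exact Or.inr ⟨-x, (neg_mem_resSet hl4 hl3 hx).2 h, neg_neg x⟩
    · rintro (h | ⟨y, hy, rfl⟩)
      · exact ⟨(mem_resSet.1 h).1, mem_univ _⟩
      · exact ⟨neg_ne_zero.2 (mem_resSet.1 hy).1, mem_univ _⟩
  · rw [disjoint_left]
    intro x hx hx'
    obtain ⟨y, hy, rfl⟩ := mem_image.1 hx'
    exact (neg_mem_resSet hl4 hl3 (mem_resSet.1 hy).1).1 hx hy

theorem two_mul_card : 2 * (resSet l).card + 1 = l := by
  obtain ⟨h1, h2⟩ := union_neg hl4 hl3
  have h := congrArg card h1
  rw [card_erase_of_mem (mem_univ _), card_union_of_disjoint h2,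
    card_image_of_injective _ neg_injective, card_univ, ZMod.card] at h
  omega

theorem odd_card : Odd (resSet l).card := by
  have := two_mul_card hl4 hl3
  exact Nat.odd_iff.2 (by omega)

theorem image_mul {a : ZMod l} (ha : a ∈ resSet l) :
    (resSet l).image (fun r => a * r) = resSet l := by
  refine eq_of_subset_of_card_le (fun x hx => ?_) ?_
  · obtain ⟨r, hr, rfl⟩ := mem_image.1 hx
    rw [mem_resSet_iff hl4 hl3, map_mul, (mem_resSet_iff hl4 hl3).1 ha,
      (mem_resSet_iff hl4 hl3).1 hr, one_mul]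
  · rw [card_image_of_injective _ fun x y h => mul_left_cancel₀ (mem_resSet.1 ha).1 h]

theorem prod_mul_left {M : Type*} [CommMonoid M] (φ : ZMod l → M) {a : ZMod l}
    (ha : a ∈ resSet l) (c : ZMod l) :
    ∏ r ∈ resSet l, φ (c * (a * r)) = ∏ r ∈ resSet l, φ (c * r) := by
  conv_rhs => rw [← image_mul hl4 hl3 ha]
  rw [prod_image fun x _ y _ h => mul_left_cancel₀ (mem_resSet.1 ha).1 h]

theorem sum_resSet : ∑ r ∈ resSet l, r = 0 := by
  have h4 : (4 : ZMod l) ∈ resSet l := by
    refine mem_resSet.2 ⟨fun h => ?_, ⟨2, by norm_num⟩⟩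
    have : l ∣ 4 := (ZMod.natCast_eq_zero_iff 4 l).1 (by exact_mod_cast h)
    have := Nat.le_of_dvd (by norm_num) this
    omega
  have h := congrArg (fun s => ∑ r ∈ s, r) (image_mul hl4 hl3 h4)
  rw [sum_image fun x _ y _ h => mul_left_cancel₀ (mem_resSet.1 h4).1 h, ← mul_sum] at h
  have h3 : (3 : ZMod l) ≠ 0 := fun h0 => by
    have : l ∣ 3 := (ZMod.natCast_eq_zero_iff 3 l).1 (by exact_mod_cast h0)
    have := Nat.le_of_dvd (by norm_num) this
    omega
  exact (mul_eq_zero.1 (show (3 : ZMod l) * ∑ r ∈ resSet l, r = 0 by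
    linear_combination h)).resolve_left h3

theorem dvd_valSum (c : ZMod l) : l ∣ valSum c := by
  rw [← ZMod.natCast_eq_zero_iff, valSum, Nat.cast_sum]
  simp only [ZMod.natCast_zmod_val]
  rw [← mul_sum, sum_resSet hl4 hl3, mul_zero]

theorem valSum_add_neg : valSum (1 : ZMod l) + valSum (-1 : ZMod l) = l * (resSet l).card := by
  rw [valSum, valSum, ← sum_add_distrib, mul_comm, ← smul_eq_mul, ← sum_const]
  refine sum_congr rfl fun r hr => ?_
  rw [one_mul, neg_one_mul, ZMod.neg_val, if_neg (mem_resSet.1 hr).1]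
  have := ZMod.val_lt r
  omega

end Fermat.Agent.CauchyJacobi

end
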